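import Mathlib

/-!
# RIBET wall-p, W-ALGP, leaf WPS: the abstract climbing argument (helper913), Mathlib-only

`O ≤ V` subalgebras of a field `F` (`O = B_n`, `V = B_P` for a closed point `n` on the
component `P`), `W ∈ O` (the uniformiser), with

* `(H1)` `O ∩ W V = W O`;
* `(H2)` a `p`-th root modulo `W V` of an element of `O` is congruent modulo `W V` to an element
  of `O` (`O / W O` is integrally closed in `V / W V`);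
* `p = W ^ ((p - 1) e) r`, `r ∈ V`.

`climb913`: if `Γ ∈ V`, `ε ∈ O`, `Γ ^ p ≡ ε mod W ^ (p e + 1) V`, then `Γ ≡ θ mod W ^ e V` for some
`θ ∈ O` (successive approximation of the `p`-th root below the Hensel bound).

`wps_abs913`: the abstract form of wild purity at a smooth point.
-/

set_option autoImplicit false

namespace Fermat.Agent.Ribet.H913

section Abs

variable {R F : Type*} [CommRing R] [Field F] [Algebra R F]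

/-- `(x + y) ^ p = x ^ p + y ^ p + p x y q` with `q` in any subalgebra containing `x`, `y`. -/
theorem add_pow_prime_mem913 (S : Subalgebra R F) {p : ℕ} (hp : p.Prime) {x y : F}
    (hx : x ∈ S) (hy : y ∈ S) :
    ∃ q ∈ S, (x + y) ^ p = x ^ p + y ^ p + (p : F) * x * y * q := by
  refine ⟨_, ?_, add_pow_prime_eq hp x y⟩
  refine Subalgebra.sum_mem _ fun k _ => ?_
  exact S.mul_mem (S.mul_mem (S.pow_mem hx _) (S.pow_mem hy _)) (natCast_mem S _)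

/-- `(H1)` iterated: `O ∩ W ^ k V = W ^ k O`. -/
theorem dvd_pow_of_dvd913 (O V : Subalgebra R F) {W : F} (hW : W ≠ 0) (hWV : W ∈ V)
    (H1 : ∀ z ∈ O, (∃ v ∈ V, z = W * v) → ∃ o ∈ O, z = W * o) :
    ∀ (k : ℕ) (z : F), z ∈ O → (∃ v ∈ V, z = W ^ k * v) → ∃ o ∈ O, z = W ^ k * o := by
  intro k
  induction k with
  | zero =>
    intro z hz _
    exact ⟨z, hz, by simp⟩
  | succ k ih =>
    rintro z hz ⟨v, hv, hzv⟩
    obtain ⟨o₁, ho₁, h1⟩ := H1 z hz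
      ⟨W ^ k * v, V.mul_mem (V.pow_mem hWV k) hv, by rw [hzv, pow_succ]; ring⟩
    have h2 : o₁ = W ^ k * v := by
      apply mul_left_cancel₀ hW
      rw [← h1, hzv, pow_succ]
      ring
    obtain ⟨o, ho, h3⟩ := ih o₁ ho₁ ⟨v, hv, h2⟩
    exact ⟨o, ho, by rw [h1, h3, pow_succ]; ring⟩

/-- **Climbing.** -/
theorem climb913 (O V : Subalgebra R F) (hOV : O ≤ V) {W : F} (hW : W ≠ 0) (hWO : W ∈ O)
    {p : ℕ} (hp : p.Prime) (e : ℕ) {r : F} (hr : r ∈ V)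
    (hpe : (p : F) = W ^ ((p - 1) * e) * r)
    (H1 : ∀ z ∈ O, (∃ v ∈ V, z = W * v) → ∃ o ∈ O, z = W * o)
    (H2 : ∀ γ ∈ V, ∀ c ∈ O, (∃ v ∈ V, γ ^ p - c = W * v) →
      ∃ γ₀ ∈ O, ∃ v ∈ V, γ - γ₀ = W * v)
    {Γ ε : F} (hΓ : Γ ∈ V) (hε : ε ∈ O)
    (hΓε : ∃ v ∈ V, Γ ^ p - ε = W ^ (p * e + 1) * v) :
    ∀ s : ℕ, s ≤ e → ∃ θ ∈ O, ∃ v ∈ V, Γ - θ = W ^ s * v := by
  have hWV : W ∈ V := hOV hWO
  obtain ⟨p', rfl⟩ : ∃ p', p = p' + 1 := ⟨p - 1, by have := hp.pos; omega⟩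
  have hp'1 : 1 ≤ p' := by have := hp.two_le; omega
  simp only [Nat.add_sub_cancel] at hpe
  intro s
  induction s with
  | zero =>
    intro _
    exact ⟨0, O.zero_mem, Γ, hΓ, by simp⟩
  | succ s ih =>
    intro hs
    obtain ⟨θ, hθ, γ, hγ, hΓθ⟩ := ih (by omega)
    have hθV : θ ∈ V := hOV hθ
    have hΓeq : Γ = θ + W ^ s * γ := by linear_combination hΓθ
    obtain ⟨q, hq, hexp⟩ :=
      add_pow_prime_mem913 V hp hθV (V.mul_mem (V.pow_mem hWV s) hγ)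
    obtain ⟨v₀, hv₀, hv₀e⟩ := hΓε
    obtain ⟨t, ht⟩ : ∃ t, p' * e + s = (p' + 1) * s + 1 + t := by
      refine ⟨p' * e + s - ((p' + 1) * s + 1), ?_⟩
      have h1 : p' * (s + 1) ≤ p' * e := Nat.mul_le_mul_left p' hs
      have h2 : p' * (s + 1) = p' * s + p' := by ring
      have h3 : (p' + 1) * s = p' * s + s := by ring
      omega
    obtain ⟨t', ht'⟩ : ∃ t', (p' + 1) * e + 1 = (p' + 1) * s + 1 + t' := by
      refine ⟨(p' + 1) * e + 1 - ((p' + 1) * s + 1), ?_⟩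
      have h1 : (p' + 1) * s ≤ (p' + 1) * e := Nat.mul_le_mul_left (p' + 1) (by omega)
      omega
    set X : F := W ^ t * (r * θ * γ * q) - W ^ t' * v₀ with hX
    have hXV : X ∈ V :=
      V.sub_mem (V.mul_mem (V.pow_mem hWV t)
        (V.mul_mem (V.mul_mem (V.mul_mem hr hθV) hγ) hq))
        (V.mul_mem (V.pow_mem hWV t') hv₀)
    have key : ε - θ ^ (p' + 1) = W ^ ((p' + 1) * s) * (γ ^ (p' + 1) + W * X) := by
      have h1 : Γ ^ (p' + 1) = θ ^ (p' + 1) + (W ^ s * γ) ^ (p' + 1) +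
          ((p' + 1 : ℕ) : F) * θ * (W ^ s * γ) * q := by
        rw [hΓeq]; exact hexp
      have h2 : ε = Γ ^ (p' + 1) - W ^ ((p' + 1) * e + 1) * v₀ := by
        linear_combination -hv₀e
      have h3 : W ^ (p' * e) * W ^ s = W ^ ((p' + 1) * s) * W * W ^ t := by
        rw [← pow_add, ht, pow_add, pow_add, pow_one]
      have h4 : W ^ ((p' + 1) * e + 1) = W ^ ((p' + 1) * s) * W * W ^ t' := by
        rw [ht', pow_add, pow_add, pow_one]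
      have h5 : (W ^ s * γ) ^ (p' + 1) = W ^ ((p' + 1) * s) * γ ^ (p' + 1) := by
        rw [mul_pow, ← pow_mul, mul_comm s]
      rw [h2, h1, hpe, h4, h5, hX]
      linear_combination (r * θ * γ * q) * h3
    obtain ⟨c, hc, hce⟩ := dvd_pow_of_dvd913 O V hW hWV H1 ((p' + 1) * s) (ε - θ ^ (p' + 1))
      (O.sub_mem hε (O.pow_mem hθ _))
      ⟨_, V.add_mem (V.pow_mem hγ _) (V.mul_mem hWV hXV), key⟩
    have hcX : c = γ ^ (p' + 1) + W * X := by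
      apply mul_left_cancel₀ (pow_ne_zero ((p' + 1) * s) hW)
      rw [← hce, key]
    obtain ⟨γ₀, hγ₀, v₁, hv₁, h⟩ := H2 γ hγ c hc ⟨-X, V.neg_mem hXV, by rw [hcX]; ring⟩
    refine ⟨θ + W ^ s * γ₀, O.add_mem hθ (O.mul_mem (O.pow_mem hWO s) hγ₀), v₁, hv₁, ?_⟩
    rw [hΓeq, pow_succ]
    linear_combination W ^ s * h

/-- **Wild purity at a smooth point, abstract form.**  `O = B_n`, `V = B_P` (`n ∈ P`),
`V' = B_{P'}` (`n ∉ P'`), `W` the uniformiser, `Λ = ζ - 1 = W ^ e ρ`, `p = Λ ^ (p - 1) z`. -/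
theorem wps_abs913 (O V V' : Subalgebra R F) (hOV : O ≤ V) {W Lam ρ ρ' z : F}
    (hW : W ≠ 0) (hWO : W ∈ O) {p : ℕ} (hp : p.Prime) (e : ℕ) (he : 1 ≤ e)
    (hLam : Lam = W ^ e * ρ) (hρ : ρ ∈ O) (hρ' : ρ' ∈ O) (hρρ' : ρ * ρ' = 1)
    (hz : z ∈ O) (hpz : (p : F) = Lam ^ (p - 1) * z)
    (H1 : ∀ z ∈ O, (∃ v ∈ V, z = W * v) → ∃ o ∈ O, z = W * o)
    (H2 : ∀ γ ∈ V, ∀ c ∈ O, (∃ v ∈ V, γ ^ p - c = W * v) →
      ∃ γ₀ ∈ O, ∃ v ∈ V, γ - γ₀ = W * v)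
    (hinvO : ∀ o ∈ O, 1 + W * o ≠ 0 ∧ (1 + W * o)⁻¹ ∈ O)
    (DENS : ∀ g f : F, ∃ b ∈ O, f * (b - g) ∈ V')
    {u d₀ : F} (hu : u ≠ 0) (hd₀ : d₀ ≠ 0) (hd₀V : d₀ ∈ V)
    (hεO : u * d₀ ^ p ∈ O) (hεO' : (u * d₀ ^ p)⁻¹ ∈ O)
    (huV : ∃ v ∈ V, u = 1 + Lam ^ p * W * v) :
    ∃ d : F, d ≠ 0 ∧ (∃ o ∈ O, u * d ^ p = 1 + Lam ^ p * o) ∧
      (∃ v ∈ V, d = 1 + Lam * v) ∧ (∃ v ∈ V', d = 1 + Lam * v) := by
  have hWV : W ∈ V := hOV hWO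
  have hρV : ρ ∈ V := hOV hρ
  have hρ'V : ρ' ∈ V := hOV hρ'
  have hzV : z ∈ V := hOV hz
  have hρ0 : ρ ≠ 0 := fun h => by rw [h, zero_mul] at hρρ'; exact zero_ne_one hρρ'
  have hLam0 : Lam ≠ 0 := by rw [hLam]; exact mul_ne_zero (pow_ne_zero _ hW) hρ0
  have hLamO : Lam ∈ O := by rw [hLam]; exact O.mul_mem (O.pow_mem hWO e) hρ
  have hLamV : Lam ∈ V := hOV hLamO
  obtain ⟨p', rfl⟩ : ∃ p', p = p' + 1 := ⟨p - 1, by have := hp.pos; omega⟩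
  obtain ⟨e', rfl⟩ : ∃ e', e = e' + 1 := ⟨e - 1, by omega⟩
  have hpz' : ((p' + 1 : ℕ) : F) = Lam ^ p' * z := by simpa using hpz
  have hLamW : Lam = W * (W ^ e' * ρ) := by rw [hLam, pow_succ]; ring
  set ε : F := u * d₀ ^ (p' + 1) with hε
  have hε0 : ε ≠ 0 := mul_ne_zero hu (pow_ne_zero _ hd₀)
  -- (1) `p = W ^ ((p - 1) e) r`
  have hpe : ((p' + 1 : ℕ) : F) = W ^ ((p' + 1 - 1) * (e' + 1)) * (ρ ^ p' * z) := by
    rw [hpz', hLam, Nat.add_sub_cancel, mul_pow, ← pow_mul, mul_comm (e' + 1) p']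
    ring
  -- (2) `d₀ ^ p ≡ ε`
  obtain ⟨v, hv, huv⟩ := huV
  have hΓε : ∃ v₂ ∈ V, d₀ ^ (p' + 1) - ε = W ^ ((p' + 1) * (e' + 1) + 1) * v₂ := by
    refine ⟨-(d₀ ^ (p' + 1) * ρ ^ (p' + 1) * v),
      V.neg_mem (V.mul_mem (V.mul_mem (V.pow_mem hd₀V _) (V.pow_mem hρV _)) hv), ?_⟩
    have h1 : Lam ^ (p' + 1) = W ^ ((p' + 1) * (e' + 1)) * ρ ^ (p' + 1) := by
      rw [hLam, mul_pow, ← pow_mul, mul_comm (e' + 1)]
    rw [hε, huv, h1, pow_succ W ((p' + 1) * (e' + 1))]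
    ring
  -- (3) climbing
  obtain ⟨θ, hθ, v₁, hv₁, hθe⟩ := climb913 O V hOV hW hWO hp (e' + 1)
    (V.mul_mem (V.pow_mem hρV p') hzV) hpe H1 H2 hd₀V hεO hΓε (e' + 1) le_rfl
  have hθV : θ ∈ V := hOV hθ
  -- (4) `d₀ = θ + Λ v'`
  set v' : F := ρ' * v₁ with hv'
  have hv'V : v' ∈ V := V.mul_mem hρ'V hv₁
  have hd₀θ : d₀ = θ + Lam * v' := by
    rw [hv', hLam]
    linear_combination hθe - W ^ (e' + 1) * v₁ * hρρ'
  obtain ⟨q, hq, hexp⟩ := add_pow_prime_mem913 V hp hθV (V.mul_mem hLamV hv'V)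
  have hd₀p : d₀ ^ (p' + 1) = θ ^ (p' + 1) + Lam ^ (p' + 1) * (v' ^ (p' + 1) + z * θ * v' * q) := by
    rw [hd₀θ, hexp, hpz', pow_succ Lam p']
    ring
  -- (5) `ε - θ ^ p ∈ Λ ^ p O`
  have h5 : ∃ o₃ ∈ O, ε - θ ^ (p' + 1) = Lam ^ (p' + 1) * o₃ := by
    have hLp : Lam ^ (p' + 1) = W ^ ((p' + 1) * (e' + 1)) * ρ ^ (p' + 1) := by
      rw [hLam, mul_pow, ← pow_mul, mul_comm (e' + 1)]
    set Y : F := d₀ ^ (p' + 1) * W * v + (v' ^ (p' + 1) + z * θ * v' * q) with hY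
    have hYV : Y ∈ V :=
      V.add_mem (V.mul_mem (V.mul_mem (V.pow_mem hd₀V _) hWV) hv)
        (V.add_mem (V.pow_mem hv'V _) (V.mul_mem (V.mul_mem (V.mul_mem hzV hθV) hv'V) hq))
    have hεθ : ε - θ ^ (p' + 1) = Lam ^ (p' + 1) * Y := by
      have : ε = d₀ ^ (p' + 1) + Lam ^ (p' + 1) * (d₀ ^ (p' + 1) * W * v) := by
        rw [hε, huv]; ring
      rw [hY]
      linear_combination this + hd₀p
    obtain ⟨o, ho, hoe⟩ := dvd_pow_of_dvd913 O V hW hWV H1 ((p' + 1) * (e' + 1))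
      (ε - θ ^ (p' + 1)) (O.sub_mem hεO (O.pow_mem hθ _))
      ⟨ρ ^ (p' + 1) * Y, V.mul_mem (V.pow_mem hρV _) hYV, by rw [hεθ, hLp]; ring⟩
    refine ⟨ρ' ^ (p' + 1) * o, O.mul_mem (O.pow_mem hρ' _) ho, ?_⟩
    have hρp : ρ ^ (p' + 1) * ρ' ^ (p' + 1) = 1 := by rw [← mul_pow, hρρ', one_pow]
    rw [hoe, hLp]
    linear_combination (-(W ^ ((p' + 1) * (e' + 1)) * o)) * hρp
  obtain ⟨o₃, ho₃, hεθ⟩ := h5
  -- (6) `θ` is a unit of `O`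
  set o₄ : F := -(W ^ e' * ρ * Lam ^ p' * ε⁻¹ * o₃) with ho₄
  have ho₄O : o₄ ∈ O :=
    O.neg_mem (O.mul_mem (O.mul_mem (O.mul_mem (O.mul_mem (O.pow_mem hWO _) hρ)
      (O.pow_mem hLamO _)) hεO') ho₃)
  obtain ⟨hne4, hinv4⟩ := hinvO o₄ ho₄O
  have hθp : θ ^ (p' + 1) = ε * (1 + W * o₄) := by
    rw [ho₄]
    have h1 : ε * ε⁻¹ = 1 := mul_inv_cancel₀ hε0
    have h2 : Lam ^ (p' + 1) = W * (W ^ e' * ρ) * Lam ^ p' := by
      rw [pow_succ, mul_comm]; congr 1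
    linear_combination -hεθ - o₃ * h2 + (W * (W ^ e' * ρ) * Lam ^ p' * o₃) * h1
  have hθp0 : θ ^ (p' + 1) ≠ 0 := by rw [hθp]; exact mul_ne_zero hε0 hne4
  have hθ0 : θ ≠ 0 := fun h => hθp0 (by rw [h, zero_pow (Nat.succ_ne_zero _)])
  have hθpinv : (θ ^ (p' + 1))⁻¹ ∈ O := by
    rw [hθp, mul_inv]; exact O.mul_mem hεO' hinv4
  have hθinv : θ⁻¹ ∈ O := by
    have : θ⁻¹ = θ ^ p' * (θ ^ (p' + 1))⁻¹ := by
      rw [pow_succ]; field_simp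
    rw [this]; exact O.mul_mem (O.pow_mem hθ _) hθpinv
  -- (7) `d₁ = d₀ / θ`
  set d₁ : F := d₀ * θ⁻¹ with hd₁
  have hd₁0 : d₁ ≠ 0 := mul_ne_zero hd₀ (inv_ne_zero hθ0)
  have hud₁ : u * d₁ ^ (p' + 1) = 1 + Lam ^ (p' + 1) * (o₃ * (θ ^ (p' + 1))⁻¹) := by
    have : u * d₁ ^ (p' + 1) = ε * (θ ^ (p' + 1))⁻¹ := by
      rw [hd₁, mul_pow, hε, inv_pow]; ring
    rw [this]
    have h1 : ε = θ ^ (p' + 1) + Lam ^ (p' + 1) * o₃ := by linear_combination hεθ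
    rw [h1]
    field_simp
  have hd₁V : d₁ = 1 + Lam * (v' * θ⁻¹) := by
    rw [hd₁, hd₀θ]
    field_simp
  -- (8) density on the other component
  obtain ⟨b, hb, hbg⟩ := DENS ((d₁⁻¹ - 1) * Lam⁻¹) d₁
  obtain ⟨hne8, -⟩ := hinvO (W ^ e' * ρ * b) (O.mul_mem (O.mul_mem (O.pow_mem hWO _) hρ) hb)
  have hδ : 1 + W * (W ^ e' * ρ * b) = 1 + Lam * b := by rw [hLamW]; ring
  rw [hδ] at hne8
  obtain ⟨q', hq', hexp'⟩ := add_pow_prime_mem913 O hp O.one_mem (O.mul_mem hLamO hb)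
  have hδp : (1 + Lam * b) ^ (p' + 1) = 1 + Lam ^ (p' + 1) * (b ^ (p' + 1) + z * b * q') := by
    rw [hexp', hpz', pow_succ Lam p']
    ring
  refine ⟨d₁ * (1 + Lam * b), mul_ne_zero hd₁0 hne8, ?_, ?_, ?_⟩
  · refine ⟨o₃ * (θ ^ (p' + 1))⁻¹ + (b ^ (p' + 1) + z * b * q') +
      Lam ^ (p' + 1) * (o₃ * (θ ^ (p' + 1))⁻¹) * (b ^ (p' + 1) + z * b * q'), ?_, ?_⟩
    · have hA : o₃ * (θ ^ (p' + 1))⁻¹ ∈ O := O.mul_mem ho₃ hθpinv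
      have hB : b ^ (p' + 1) + z * b * q' ∈ O :=
        O.add_mem (O.pow_mem hb _) (O.mul_mem (O.mul_mem hz hb) hq')
      exact O.add_mem (O.add_mem hA hB) (O.mul_mem (O.mul_mem (O.pow_mem hLamO _) hA) hB)
    · rw [mul_pow, ← mul_assoc, hud₁, hδp]
      ring
  · refine ⟨v' * θ⁻¹ + b + Lam * (v' * θ⁻¹) * b, ?_, ?_⟩
    · have hA : v' * θ⁻¹ ∈ V := V.mul_mem hv'V (hOV hθinv)
      exact V.add_mem (V.add_mem hA (hOV hb)) (V.mul_mem (V.mul_mem hLamV hA) (hOV hb))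
    · rw [hd₁V]
      ring
  · refine ⟨d₁ * (b - (d₁⁻¹ - 1) * Lam⁻¹), hbg, ?_⟩
    field_simp
    ring

end Abs

end Fermat.Agent.Ribet.H913
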