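import Fermat.Agent.Ribet.H495.AlgPLoc
import Fermat.Agent.A2.Alg.H754.PuritySmooth
import Fermat.Agent.A2.Alg.H348.ChartComp
import Fermat.Agent.Ribet.H913.Climb

/-!
# RIBET wall-p, W-ALGP, leaf **WPS** (helper913): `wpSmoothLeaf : H495.AlgP.WPSmoothLeaf`

Wild purity at a closed point `n` of the special fibre lying on exactly ONE component `P` of the
chart (`P'` the other one).  With `O = B_n`, `V = B_P`, `V' = B_{P'}`:

* A2 purity (`A2.Alg.H754.purity_smooth_aux`, exponent `p`) gives `d₀` with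
  `ε = u d₀ ^ p ∈ Oˣ`, `d₀ ∈ Vˣ`;
* climbing (`Climb.lean`, `wps_abs913`): `(H1)` `O ∩ w V = w O` (`h1_chart913`), `(H2)`
  `O / w O = (B / P)_n` is integrally closed in `V / w V = Frac (B / P)` (`h2_chart913`,
  from `IsIntegrallyClosed (B ⧸ P)`);
* density of `O` in `F` for the `P'`-adic topology (`dens_chart913`, `P' ⊄ n`), using the
  normal form `A2.Alg.H348.CompData.exists_pow_mul` in the discrete valuation ring `V'`.

The sheet labels are `j = 0` on both components.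
-/

set_option autoImplicit false
set_option linter.unusedSectionVars false
set_option linter.unusedVariables false
set_option linter.style.haveILetI false

namespace Fermat.Agent.Ribet.H913

open Fermat.Agent.A2 Fermat.Agent.A2.Alg Fermat.Agent.Ribet.H495.AlgP

section Loc

variable {R F : Type*} [CommRing R] [Field F] [Algebra R F]

theorem locSub_mono913 {B : Subalgebra R F} {P n : Ideal B} (hP : P.IsPrime) (hn : n.IsPrime)
    (hPn : P ≤ n) : locSub B n hn ≤ locSub B P hP := by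
  rintro f ⟨a, b, hb, hab⟩
  exact ⟨a, b, fun h => hb (hPn h), hab⟩

theorem coe_mem_locSub913 {B : Subalgebra R F} {n : Ideal B} (hn : n.IsPrime) (b : B) :
    (b : F) ∈ locSub B n hn :=
  ⟨b, 1, fun h => hn.ne_top ((Ideal.eq_top_iff_one n).2 h), by simp⟩

theorem div_mem_locSub913 {B : Subalgebra R F} {n : Ideal B} (hn : n.IsPrime) (a : B) {b : B}
    (hb : b ∉ n) : (a : F) * (b : F)⁻¹ ∈ locSub B n hn := by
  have hb0 : (b : F) ≠ 0 := coe_ne_zero_of_notMem495 hb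
  exact ⟨a, b, hb, by field_simp⟩

theorem inv_mem_locSub913 {B : Subalgebra R F} {n : Ideal B} (hn : n.IsPrime) {b : B}
    (hb : b ∉ n) : ((b : F))⁻¹ ∈ locSub B n hn := by
  have := div_mem_locSub913 (F := F) hn (1 : B) hb
  simpa using this

theorem mem_locAt_iff913 {B : Subalgebra R F} {P : Ideal B} [hP : P.IsPrime] {f : F} :
    f ∈ Fermat.Agent.A2.H348.locAt B P ↔ f ∈ locSub B P hP := by
  constructor
  · rintro ⟨s, hs, hsf⟩
    exact ⟨⟨_, hsf⟩, s, hs, mul_comm _ _⟩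
  · rintro ⟨a, b, hb, hab⟩
    exact ⟨b, hb, by rw [mul_comm, hab]; exact a.2⟩

theorem w_mem_left913 {B : Subalgebra R F} {P P' : Ideal B} {w : R}
    (hinf : P ⊓ P' = Ideal.span {algebraMap R B w}) : algebraMap R B w ∈ P := by
  have h : algebraMap R B w ∈ P ⊓ P' := by
    rw [hinf]; exact Ideal.mem_span_singleton_self _
  exact h.1

/-- `P B_P ⊆ w B_P`. -/
theorem exists_eq_w_mul913 {B : Subalgebra R F} {P P' : Ideal B} (hP : P.IsPrime) {w : R}
    (hinf : P ⊓ P' = Ideal.span {algebraMap R B w}) (hP'P : ¬ P' ≤ P) {a : B} (ha : a ∈ P) :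
    ∃ v ∈ locSub B P hP, (a : F) = algebraMap R F w * v := by
  obtain ⟨s, hs', hs⟩ := SetLike.not_le_iff_exists.1 hP'P
  have h : a * s ∈ P ⊓ P' := ⟨P.mul_mem_right _ ha, P'.mul_mem_left _ hs'⟩
  rw [hinf, Ideal.mem_span_singleton'] at h
  obtain ⟨m, hm⟩ := h
  have hmF : (m : F) * algebraMap R F w = (a : F) * (s : F) := congrArg Subtype.val hm
  have hs0 : (s : F) ≠ 0 := coe_ne_zero_of_notMem495 hs
  refine ⟨(m : F) * (s : F)⁻¹, div_mem_locSub913 hP m hs, ?_⟩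
  field_simp
  linear_combination -hmF

/-- `B ∩ w B_P ⊆ P`. -/
theorem mem_of_eq_w_mul913 {B : Subalgebra R F} {P : Ideal B} (hP : P.IsPrime) {w : R}
    (hwP : algebraMap R B w ∈ P) {b : B} {v : F} (hv : v ∈ locSub B P hP)
    (h : (b : F) = algebraMap R F w * v) : b ∈ P := by
  obtain ⟨a, s, hs, hvs⟩ := hv
  have h1 : b * s = algebraMap R B w * a := by
    apply Subtype.ext
    show (b : F) * (s : F) = algebraMap R F w * (a : F)
    rw [h, mul_assoc, hvs]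
  have h2 : b * s ∈ P := by rw [h1]; exact P.mul_mem_right _ hwP
  exact (hP.mem_or_mem h2).resolve_right hs

/-- `(H1)`: `B_n ∩ w B_P = w B_n` when `n` is not on the other component. -/
theorem h1_chart913 {B : Subalgebra R F} {P P' n : Ideal B} (hP : P.IsPrime) (hn : n.IsPrime)
    {w : R} (hinf : P ⊓ P' = Ideal.span {algebraMap R B w}) (hP'n : ¬ P' ≤ n) :
    ∀ z ∈ locSub B n hn, (∃ v ∈ locSub B P hP, z = algebraMap R F w * v) →
      ∃ o ∈ locSub B n hn, z = algebraMap R F w * o := by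
  rintro z ⟨a, b, hb, hab⟩ ⟨v, hv, hzv⟩
  have hwP : algebraMap R B w ∈ P := w_mem_left913 hinf
  have haP : a ∈ P := mem_of_eq_w_mul913 hP hwP (v := v * (b : F))
    ((locSub B P hP).mul_mem hv (coe_mem_locSub913 hP b)) (by rw [← hab, hzv]; ring)
  obtain ⟨s, hs', hs⟩ := SetLike.not_le_iff_exists.1 hP'n
  have h : a * s ∈ P ⊓ P' := ⟨P.mul_mem_right _ haP, P'.mul_mem_left _ hs'⟩
  rw [hinf, Ideal.mem_span_singleton'] at h
  obtain ⟨m, hm⟩ := h
  have hmF : (m : F) * algebraMap R F w = (a : F) * (s : F) := congrArg Subtype.val hm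
  have hsb : s * b ∉ n := fun h => (hn.mem_or_mem h).elim hs hb
  have hb0 : (b : F) ≠ 0 := coe_ne_zero_of_notMem495 hb
  have hs0 : (s : F) ≠ 0 := coe_ne_zero_of_notMem495 hs
  refine ⟨(m : F) * ((s * b : B) : F)⁻¹, div_mem_locSub913 hn m hsb, ?_⟩
  have hz : z = (a : F) * (b : F)⁻¹ := by
    field_simp
    exact hab
  rw [hz]
  push_cast
  field_simp
  linear_combination -hmF

/-- `(H2)`: a `p`-th root modulo `w B_P` of an element of `B_n` is congruent to an element of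
`B_n` (`B ⧸ P` integrally closed). -/
theorem h2_chart913 {B : Subalgebra R F} {P P' n : Ideal B} (hP : P.IsPrime) (hn : n.IsPrime)
    {w : R} (hinf : P ⊓ P' = Ideal.span {algebraMap R B w}) (hP'P : ¬ P' ≤ P) (hPn : P ≤ n)
    (hnorm : IsIntegrallyClosed (B ⧸ P)) {p : ℕ} (hp0 : p ≠ 0) :
    ∀ γ ∈ locSub B P hP, ∀ c ∈ locSub B n hn,
      (∃ v ∈ locSub B P hP, γ ^ p - c = algebraMap R F w * v) →
      ∃ γ₀ ∈ locSub B n hn, ∃ v ∈ locSub B P hP, γ - γ₀ = algebraMap R F w * v := by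
  rintro γ ⟨a, b, hb, hab⟩ c ⟨ac, bc, hbc, hac⟩ ⟨v, ⟨av, bv, hbv, hav⟩, hγc⟩
  haveI := hP
  haveI := hnorm
  have hwP : algebraMap R B w ∈ P := w_mem_left913 hinf
  have hbcP : bc ∉ P := fun h => hbc (hPn h)
  have hb0 : (b : F) ≠ 0 := coe_ne_zero_of_notMem495 hb
  have hbc0 : (bc : F) ≠ 0 := coe_ne_zero_of_notMem495 hbc
  have hbv0 : (bv : F) ≠ 0 := coe_ne_zero_of_notMem495 hbv
  -- the relation in `B`
  have hrel : (a ^ p * bc - ac * b ^ p) * bv = algebraMap R B w * (av * b ^ p * bc) := by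
    apply Subtype.ext
    show ((a : F) ^ p * (bc : F) - (ac : F) * (b : F) ^ p) * (bv : F) =
      algebraMap R F w * ((av : F) * (b : F) ^ p * (bc : F))
    rw [← hab, ← hac, ← hav, mul_pow]
    linear_combination ((b : F) ^ p * (bc : F) * (bv : F)) * hγc
  have hmemP : a ^ p * bc - ac * b ^ p ∈ P := by
    have h2 : (a ^ p * bc - ac * b ^ p) * bv ∈ P := by
      rw [hrel]; exact P.mul_mem_right _ hwP
    exact (hP.mem_or_mem h2).resolve_right hbv
  -- in `D = B ⧸ P`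
  have hD : (Ideal.Quotient.mk P a) ^ p * Ideal.Quotient.mk P bc =
      Ideal.Quotient.mk P ac * (Ideal.Quotient.mk P b) ^ p := by
    have := (Ideal.Quotient.eq (I := P)).2 hmemP
    simpa using this
  obtain ⟨p', rfl⟩ : ∃ p', p = p' + 1 := ⟨p - 1, by omega⟩
  have hdvd : (Ideal.Quotient.mk P b) ^ (p' + 1) ∣ (Ideal.Quotient.mk P (a * bc)) ^ (p' + 1) := by
    refine ⟨Ideal.Quotient.mk P ac * (Ideal.Quotient.mk P bc) ^ p', ?_⟩
    rw [map_mul, mul_pow, pow_succ (Ideal.Quotient.mk P bc) p']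
    linear_combination (Ideal.Quotient.mk P bc) ^ p' * hD
  obtain ⟨a₀', ha₀'⟩ := (IsIntegrallyClosed.pow_dvd_pow_iff (Nat.succ_ne_zero p')).1 hdvd
  obtain ⟨a₀, rfl⟩ := Ideal.Quotient.mk_surjective a₀'
  have hmem2 : a * bc - b * a₀ ∈ P := by
    rw [← Ideal.Quotient.eq, ha₀', map_mul]
  obtain ⟨v₂, hv₂, hv₂e⟩ := exists_eq_w_mul913 (F := F) hP hinf hP'P hmem2
  have hbbc : b * bc ∉ P := fun h => (hP.mem_or_mem h).elim hb hbcP
  refine ⟨(a₀ : F) * (bc : F)⁻¹, div_mem_locSub913 hn a₀ hbc,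
    v₂ * ((b * bc : B) : F)⁻¹,
    (locSub B P hP).mul_mem hv₂ (inv_mem_locSub913 hP hbbc), ?_⟩
  have hγ : γ = (a : F) * (b : F)⁻¹ := by
    field_simp
    exact hab
  have hv₂e' : (a : F) * (bc : F) - (b : F) * (a₀ : F) = algebraMap R F w * v₂ := by
    rw [← hv₂e]; rfl
  rw [hγ]
  push_cast
  field_simp
  linear_combination hv₂e'

end Loc

section Arith

/-- The arithmetic of `λ = ζ - 1` in a discrete valuation ring of residue characteristic `p`:
`λ = w ^ e υ` with `e ≥ 1`, `υ` a unit, and `p = λ ^ (p - 1) z`. -/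
theorem zeta_arith913 {R : Type*} [CommRing R] [IsDomain R] [IsDiscreteValuationRing R]
    {p : ℕ} (hp : p.Prime) (hpR : (p : R) ∈ IsLocalRing.maximalIdeal R) {ζ : R}
    (hζ : IsPrimitiveRoot ζ p) {w : R} (hw : Irreducible w) :
    ∃ (e : ℕ) (υ υ' z : R), 1 ≤ e ∧ ζ - 1 = w ^ e * υ ∧ υ * υ' = 1 ∧
      (p : R) = (ζ - 1) ^ (p - 1) * z := by
  have hlam0 : ζ - 1 ≠ 0 := sub_ne_zero.2 (hζ.ne_one hp.one_lt)
  have hlamp : (ζ - 1) ^ p ∈ IsLocalRing.maximalIdeal R := by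
    have h1 := add_pow_prime_eq hp (ζ - 1) (1 : R)
    rw [sub_add_cancel, hζ.pow_eq_one, one_pow] at h1
    have h2 : (ζ - 1) ^ p = -((p : R) * ((ζ - 1) * 1 *
        ∑ k ∈ Finset.Ioo 0 p, (ζ - 1) ^ (k - 1) * 1 ^ (p - k - 1) * ((p.choose k / p : ℕ) : R))) := by
      linear_combination -h1
    rw [h2]
    exact neg_mem (Ideal.mul_mem_right _ _ hpR)
  have hlam : ζ - 1 ∈ IsLocalRing.maximalIdeal R :=
    (IsLocalRing.maximalIdeal.isMaximal R).isPrime.mem_of_pow_mem p hlamp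
  obtain ⟨e, υ, hυ⟩ := IsDiscreteValuationRing.eq_unit_mul_pow_irreducible hlam0 hw
  obtain ⟨z, -, hz⟩ := hζ.self_sub_one_pow_dvd_order (Nat.sub_lt hp.pos one_pos)
  refine ⟨e, (υ : R), ((υ⁻¹ : Rˣ) : R), z, ?_, ?_, ?_, ?_⟩
  · rcases Nat.eq_zero_or_pos e with h0 | h0
    · exfalso
      rw [h0, pow_zero, mul_one] at hυ
      rw [hυ] at hlam
      exact (IsLocalRing.mem_maximalIdeal _).1 hlam υ.isUnit
    · exact h0
  · rw [hυ]; ring
  · exact υ.mul_inv
  · rw [hz]; ring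

end Arith

section Chart

variable {R E F : Type*} [CommRing R] [IsDomain R] [IsDiscreteValuationRing R]
  [Field E] [Algebra R E] [IsFractionRing R E]
  [Field F] [Algebra E F] [Algebra R F] [IsScalarTower R E F]

/-- `1 + w B_n ⊆ (B_n)ˣ`. -/
theorem one_add_w_mul913 {w : R} {B : Subalgebra R F} {n : Ideal B} (hn : n.IsPrime)
    (hwn : algebraMap R B w ∈ n) :
    ∀ o ∈ locSub B n hn, 1 + algebraMap R F w * o ≠ 0 ∧
      (1 + algebraMap R F w * o)⁻¹ ∈ locSub B n hn :=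
  (tauLoc_locSub w B (RingEquiv.refl F)
    (fun b hb => ⟨0, B.zero_mem, by simp⟩) n hn hwn).inv_mem

/-- **Density**: `B_n + f⁻¹ B_{P'} = F` when the closed point `n` is not on the component `P'`. -/
theorem dens_chart913 {w : R} {x : F} {B : Subalgebra R F} (hB : ChartCtx E w x B)
    {P P' n : Ideal B} (hP' : P'.IsPrime) (hn : n.IsPrime)
    (hinf : P' ⊓ P = Ideal.span {algebraMap R B w}) (hPP' : ¬ P ≤ P') (hP'n : ¬ P' ≤ n) :
    ∀ g f : F, ∃ b ∈ locSub B n hn, f * (b - g) ∈ locSub B P' hP' := by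
  intro g f
  haveI := hP'
  have D := Fermat.Agent.A2.Alg.H348.compData_of_inf hB hinf hPP'
  have hAB := Fermat.Agent.A2.Alg.H348.adjoin_le_of_ctx hB
  have hW0 : algebraMap R F w ≠ 0 := D.w_ne
  have hwP' : algebraMap R B w ∈ P' := w_mem_left913 hinf
  obtain ⟨s, hsA, hs0, hsB, hsg⟩ := D.frac g
  by_cases hsn : (⟨s, hsB⟩ : B) ∈ n
  · obtain ⟨y, hy', hy⟩ := SetLike.not_le_iff_exists.1 hP'n
    obtain ⟨k, hk⟩ := D.exists_mul_pow_mem hAB (f * g)
    rw [mem_locAt_iff913] at hk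
    obtain ⟨m, ε, hε, hε', hsε⟩ := D.exists_pow_mul hAB hsB hs0
    rw [mem_locAt_iff913] at hε hε'
    have hε0 : ε ≠ 0 := by
      rintro rfl
      exact hs0 (by rw [hsε, mul_zero])
    obtain ⟨y', hy'V, hyy'⟩ := exists_eq_w_mul913 (F := F) hP' hinf hPP' hy'
    set K : ℕ := k + m + 1 with hK
    have hsK : (⟨s, hsB⟩ : B) + y ^ K ∉ n := by
      intro h
      have h2 : y ^ K ∈ n := by
        have := n.sub_mem h hsn
        simpa using this
      exact hy (hn.mem_of_pow_mem K h2)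
    have hsK0 : (((⟨s, hsB⟩ : B) + y ^ K : B) : F) ≠ 0 := coe_ne_zero_of_notMem495 hsK
    have hsKF : (((⟨s, hsB⟩ : B) + y ^ K : B) : F) = s + (y : F) ^ K := by
      push_cast; rfl
    rw [hsKF] at hsK0
    set η : F := 1 + algebraMap R F w * (algebraMap R F w ^ k * ε⁻¹ * y' ^ K) with hη
    obtain ⟨hη0, hηinv⟩ := one_add_w_mul913 hP' hwP' (algebraMap R F w ^ k * ε⁻¹ * y' ^ K)
      ((locSub B P' hP').mul_mem ((locSub B P' hP').mul_mem
        ((locSub B P' hP').pow_mem ((locSub B P' hP').algebraMap_mem w) k) hε')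
        ((locSub B P' hP').pow_mem hy'V K))
    have hsKη : s + (y : F) ^ K = algebraMap R F w ^ m * ε * η := by
      rw [hη, hyy', hsε, hK, mul_pow]
      have h1 : ε * ε⁻¹ = 1 := mul_inv_cancel₀ hε0
      have h2 : algebraMap R F w ^ (k + m + 1) =
          algebraMap R F w ^ m * algebraMap R F w * algebraMap R F w ^ k := by
        rw [pow_add, pow_add, pow_one]; ring
      rw [h2]
      linear_combination
        (-(algebraMap R F w ^ m * algebraMap R F w * algebraMap R F w ^ k * y' ^ (k + m + 1))) * h1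
    refine ⟨(⟨s * g, hsg⟩ : B) * ((((⟨s, hsB⟩ : B) + y ^ K : B) : F))⁻¹,
      div_mem_locSub913 hn _ hsK, ?_⟩
    have hval : f * ((⟨s * g, hsg⟩ : B) * ((((⟨s, hsB⟩ : B) + y ^ K : B) : F))⁻¹ - g) =
        -(f * g * algebraMap R F w ^ k) * algebraMap R F w * y' ^ K * ε⁻¹ * η⁻¹ := by
      rw [hsKF]
      show f * (s * g * (s + (y : F) ^ K)⁻¹ - g) = _
      have h3 : s * g * (s + (y : F) ^ K)⁻¹ - g = -(g * (y : F) ^ K) * (s + (y : F) ^ K)⁻¹ := by
        field_simp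
        ring
      rw [h3, hsKη, hyy', hK, mul_pow]
      have hWm : algebraMap R F w ^ m ≠ 0 := pow_ne_zero _ hW0
      field_simp
      ring
    rw [hval]
    exact (locSub B P' hP').mul_mem ((locSub B P' hP').mul_mem ((locSub B P' hP').mul_mem
      ((locSub B P' hP').mul_mem ((locSub B P' hP').neg_mem hk)
        ((locSub B P' hP').algebraMap_mem w)) ((locSub B P' hP').pow_mem hy'V K)) hε') hηinv
  · refine ⟨g, ⟨⟨s * g, hsg⟩, ⟨s, hsB⟩, hsn, mul_comm _ _⟩, ?_⟩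
    rw [sub_self, mul_zero]
    exact (locSub B P' hP').zero_mem

theorem locUnit_mem913 {B : Subalgebra R F} {n : Ideal B} (hn : n.IsPrime) {u : F}
    (h : LocUnit B n u) : u ∈ locSub B n hn ∧ u⁻¹ ∈ locSub B n hn := by
  obtain ⟨a, b, ha, hb, hab⟩ := h
  have ha0 : (a : F) ≠ 0 := coe_ne_zero_of_notMem495 ha
  have hb0 : (b : F) ≠ 0 := coe_ne_zero_of_notMem495 hb
  have hu0 : u ≠ 0 := by
    rintro rfl
    rw [zero_mul] at hab
    exact ha0 hab.symm
  refine ⟨⟨a, b, hb, hab⟩, ⟨b, a, ha, ?_⟩⟩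
  rw [← hab]
  field_simp

theorem constAt_of_locOneR913 {B : Subalgebra R F} {P : Ideal B} {r : R} {u : F}
    (hr : algebraMap R B r ∈ P) (h : LocOneR B P r u) : ConstAt B P u := by
  obtain ⟨a, b, hb, hab, e⟩ := h
  refine ⟨1, isUnit_one, a, b, hb, ?_, e⟩
  rw [map_one, one_mul]
  exact (Ideal.span_singleton_le_iff_mem (I := P)).2 hr hab

/-- One-sided form of WPS: `n` lies on `P` and not on `P'`. -/
theorem wps_aux913 [CharZero E] (p : ℕ) (hp : p.Prime)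
    (hpR : (p : R) ∈ IsLocalRing.maximalIdeal R) (ζ : R) (hζ : IsPrimitiveRoot ζ p)
    (w : R) (x : F) (B : Subalgebra R F) (hB : ChartCtx E w x B) (c : SSChart w B)
    (u : F) (hu : u ≠ 0) (hdiv : DivisibleDiv E p u) (hdeep : DeepOne B c p (ζ - 1) u)
    (P P' : Ideal B) (hP : P.IsPrime) (hP' : P'.IsPrime)
    (hinf : P ⊓ P' = Ideal.span {algebraMap R B w}) (h12 : ¬ P ≤ P') (h21 : ¬ P' ≤ P)
    (hnorm : IsIntegrallyClosed (B ⧸ P)) (huP : LocOneR B P ((ζ - 1) ^ p * w) u)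
    (n : Ideal B) (hn : n.IsMaximal) (hPn : P ≤ n) (hP'n : ¬ P' ≤ n) :
    ∃ d : F, d ≠ 0 ∧ LocOneR B n ((ζ - 1) ^ p) (u * d ^ p) ∧ LocOneR B P (ζ - 1) d ∧
      LocOneR B P' (ζ - 1) d := by
  have hnp : n.IsPrime := hn.isPrime
  have hwP : algebraMap R B w ∈ P := w_mem_left913 hinf
  have hwn : algebraMap R B w ∈ n := hPn hwP
  have hw1 : algebraMap R B w ∈ c.p₁ := w_mem_left913 c.inf_eq
  have hw2 : algebraMap R B w ∈ c.p₂ :=
    w_mem_left913 (P := c.p₂) (P' := c.p₁) (by rw [inf_comm]; exact c.inf_eq)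
  have hW0 : algebraMap R F w ≠ 0 := fun h0 =>
    hB.hw.ne_zero (Fermat.Agent.A2.Alg.H348.injective_algebraMap_RF R E F (by rw [h0, map_zero]))
  -- A2 purity
  have hsplit : IsSplit B c u := by
    refine ⟨constAt_of_locOneR913 ?_ hdeep.1, constAt_of_locOneR913 ?_ hdeep.2⟩
    · rw [map_mul]; exact Ideal.mul_mem_left _ _ hw1
    · rw [map_mul]; exact Ideal.mul_mem_left _ _ hw2
  have hconstP : ConstAt B P u :=
    constAt_of_locOneR913 (by rw [map_mul]; exact Ideal.mul_mem_left _ _ hwP) huP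
  obtain ⟨d₀, hd₀, hd₀n, hd₀P, -⟩ := Fermat.Agent.A2.Alg.H754.purity_smooth_aux p hp.pos w x B hB
    c u hu hdiv hsplit P P' hP hP' hinf h12 h21 hnorm hconstP n hn hPn hP'n
  obtain ⟨hεO, hεO'⟩ := locUnit_mem913 hnp hd₀n
  obtain ⟨hd₀V, -⟩ := locUnit_mem913 hP hd₀P
  -- arithmetic
  obtain ⟨e, υ, υ', z, he, hlam, hυ, hpz⟩ := zeta_arith913 hp hpR hζ hB.hw
  obtain ⟨v, hv, huv⟩ := (locOneR_iff hP).1 huP
  set O := locSub B n hnp with hO
  set V := locSub B P hP with hV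
  set V' := locSub B P' hP' with hV'
  obtain ⟨d, hd0, ⟨o, ho, hdo⟩, ⟨v₁, hv₁, hdv₁⟩, ⟨v₂, hv₂, hdv₂⟩⟩ :=
    wps_abs913 O V V' (locSub_mono913 hP hnp hPn) (W := algebraMap R F w)
      (Lam := algebraMap R F (ζ - 1)) (ρ := algebraMap R F υ) (ρ' := algebraMap R F υ')
      (z := algebraMap R F z) hW0 (O.algebraMap_mem w) hp e he
      (by rw [hlam, map_mul, map_pow]) (O.algebraMap_mem υ) (O.algebraMap_mem υ')
      (by rw [← map_mul, hυ, map_one]) (O.algebraMap_mem z)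
      (by rw [← map_pow, ← map_mul, ← hpz, map_natCast])
      (h1_chart913 hP hnp hinf hP'n)
      (h2_chart913 hP hnp hinf h21 hPn hnorm hp.ne_zero)
      (one_add_w_mul913 hnp hwn)
      (dens_chart913 hB hP' hnp (by rw [inf_comm]; exact hinf) h12 hP'n)
      hu hd₀ hd₀V hεO hεO'
      ⟨v, hv, by rw [huv, map_mul, map_pow]⟩
  refine ⟨d, hd0, (locOneR_iff hnp).2 ⟨o, ho, ?_⟩, (locOneR_iff hP).2 ⟨v₁, hv₁, hdv₁⟩,
    (locOneR_iff hP').2 ⟨v₂, hv₂, hdv₂⟩⟩
  rw [hdo, map_pow]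

end Chart

/-- **Leaf WPS** (wild purity at a closed point lying on ONE component), VERBATIM statement of
`Ribet/H495/AlgPSpec.lean`. -/
theorem wpSmoothLeaf : WPSmoothLeaf := by
  intro R E F _ _ _ _ _ _ _ _ _ _ _ _ _ p hp hp2 hpR ζ hζ w x B hB c hc u hu hdiv hdeep n hn hwn h1
  have hle : c.p₁ * c.p₂ ≤ n := by
    refine le_trans Ideal.mul_le_inf ?_
    rw [c.inf_eq, Ideal.span_singleton_le_iff_mem]
    exact hwn
  rcases (Ideal.IsPrime.mul_le hn.isPrime).1 hle with h | h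
  · have h2 : ¬ c.p₂ ≤ n := fun h2 => h1 ⟨h, h2⟩
    obtain ⟨d, hd0, hdn, hd1, hd2⟩ := wps_aux913 p hp hpR ζ hζ w x B hB c u hu hdiv hdeep
      c.p₁ c.p₂ c.prime₁ c.prime₂ c.inf_eq hc.1 hc.2 c.normal₁ hdeep.1 n hn h h2
    exact ⟨d, hd0, hdn, ⟨0, by simpa using hd1⟩, ⟨0, by simpa using hd2⟩⟩
  · have h2 : ¬ c.p₁ ≤ n := fun h2 => h1 ⟨h2, h⟩
    obtain ⟨d, hd0, hdn, hd2, hd1⟩ := wps_aux913 p hp hpR ζ hζ w x B hB c u hu hdiv hdeep
      c.p₂ c.p₁ c.prime₂ c.prime₁ (by rw [inf_comm]; exact c.inf_eq) hc.2 hc.1 c.normal₂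
      hdeep.2 n hn h h2
    exact ⟨d, hd0, hdn, ⟨0, by simpa using hd1⟩, ⟨0, by simpa using hd2⟩⟩

end Fermat.Agent.Ribet.H913
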