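import Fermat.Agent.Ribet.H495.AlgPAsm
import Fermat.Agent.Ribet.H495.GluePBridge
import Fermat.Agent.Ribet.H224.WPNode
import Fermat.Agent.Ribet.H913.WPSmooth

/-!
# RIBET wall-p, W-ALGP: the closed part of helper495's chain (helper913)

`algP_of_glueCore913 : GlueCorePStatement → HConstPLeaf → AlgPStatement` (helper495's interface):
WPS (`H913.wpSmoothLeaf`), WPN (`H224.wpNodeLeaf`), the assembly `H495.AlgP.algP_of_leaves` and the
GLUE-p bridge `H495.AlgP.gluePLeaf_of_core` are co-importable and sorry-free.  What is left of
ALG-p is exactly the abstract GLUE-p core and HCONST-p (`Ribet/H495/GluePSpec.lean`).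
-/

set_option autoImplicit false

namespace Fermat.Agent.Ribet.H913

open Fermat.Agent.Ribet.H495.AlgP

/-- ALG-p (helper495's interface) from the abstract GLUE-p core and HCONST-p. -/
theorem algP_of_glueCore913 (hcore : GlueCorePStatement) (hconst : HConstPLeaf) :
    AlgPStatement :=
  algP_of_leaves wpSmoothLeaf Fermat.Agent.Ribet.H224.wpNodeLeaf
    (gluePLeaf_of_core hcore hconst)

end Fermat.Agent.Ribet.H913
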