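import Fermat.Agent.Ribet.H103.S2Spec
import Fermat.Agent.Ribet.H495.AlgPSpec

/-!
# RIBET wall-p, S2: bridge between the two ALG-p interfaces (helper913)

Two frozen interfaces for ALG-p are on main:

* `H495.AlgP.AlgPStatement` (helper495; leaves WPS `H913.wpSmoothLeaf`, WPN `H224.wpNodeLeaf`,
  GLUE-p; hypothesis `p ≠ 2`, NO purity hypothesis);
* `H103.AlgP.AlgPStatement` (helper103; leaves WP, LABEL, GLUE-p; purity hypotheses, all `p`).

For ODD `p` the first implies the second (`algP103_of_algP495`: `H103.IsDeepSplit` is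
`H495.DeepOne`, the purity hypotheses are dropped).  Hence S2 follows from helper495's ALG-p:
`s2core_of_algP495`, `s2For_of_algP495` (same statements as `H103.S2.s2core`,
`H103.S2.s2For_of_leaves`, with `p ≠ 2`): the leaves WP / LABEL / GLUE-p of `H103/AlgPSpec.lean`
are NOT needed once helper495's three leaves are proved.
-/

set_option autoImplicit false
set_option linter.style.haveILetI false
set_option synthInstance.maxHeartbeats 400000
set_option maxHeartbeats 1600000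

noncomputable section

namespace Fermat.Agent.Ribet.H913

open AlgebraicCurve ModularCurve
open Fermat.Agent.A2 Fermat.Agent.A2.Alg Fermat.Agent.A2.T1.H669

/-- `H103.AlgP.AlgPStatement` restricted to odd `p`. -/
def AlgPOddStatement913 : Prop :=
  ∀ {R E F : Type} [CommRing R] [IsDomain R] [IsDiscreteValuationRing R]
    [HenselianLocalRing R] [IsAlgClosed (IsLocalRing.ResidueField R)]
    [Field E] [CharZero E] [Algebra R E] [IsFractionRing R E]
    [Field F] [Algebra E F] [Algebra R F] [IsScalarTower R E F]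
    (p : ℕ) (_ : p.Prime) (_ : p ≠ 2) (_ : (p : R) ∈ IsLocalRing.maximalIdeal R)
    (ζ : R) (_ : IsPrimitiveRoot ζ p)
    (w : R) (_ : Irreducible w)
    (x : F) (_ : Transcendental E x)
    (_ : FiniteDimensional (IntermediateField.adjoin E ({x} : Set F)) F)
    (_ : ∀ f : F, IsAlgebraic E f → f ∈ (algebraMap E F).range)
    (Bf Bi : Subalgebra R F)
    (_ : ∀ f : F, f ∈ Bf ↔ IsIntegral (Algebra.adjoin R ({x} : Set F)) f)
    (_ : ∀ f : F, f ∈ Bi ↔ IsIntegral (Algebra.adjoin R ({x⁻¹} : Set F)) f)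
    (cf : SSChart w Bf) (ci : SSChart w Bi)
    (τ : F ≃+* F) (τE : E ≃+* E) (τR : R ≃+* R)
    (_ : ∀ e : E, τ (algebraMap E F e) = algebraMap E F (τE e))
    (_ : ∀ r : R, τE (algebraMap R E r) = algebraMap R E (τR r))
    (_ : ∀ b ∈ Bf, ∃ c ∈ Bf, τ b - b = algebraMap R F w * c)
    (_ : ∀ b ∈ Bi, ∃ c ∈ Bi, τ b - b = algebraMap R F w * c)
    (k : ℕ) (_ : τR ζ = ζ ^ k)
    (u : F) (_ : u ≠ 0) (_ : DivisibleDiv E p u)
    (_ : Fermat.Agent.Ribet.H103.AlgP.IsDeepSplit Bf cf ((ζ - 1) ^ p * w) u)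
    (_ : Fermat.Agent.Ribet.H103.AlgP.IsDeepSplit Bi ci ((ζ - 1) ^ p * w) u),
    ∃ h : F, h ≠ 0 ∧ τ u = h ^ p * u ^ k

/-- helper495's ALG-p gives helper103's ALG-p for odd `p` (without the purity hypotheses). -/
theorem algP103_of_algP495 (h : Fermat.Agent.Ribet.H495.AlgP.AlgPStatement) :
    AlgPOddStatement913 := by
  intro R E F _ _ _ _ _ _ _ _ _ _ _ _ _ p hp hp2 hpR ζ hζ w hw x hx hfin hconst Bf Bi hBf hBi
    cf ci τ τE τR hτE hτR hτf hτi k hk u hu hdiv hsf hsi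
  exact h w hw p hp hp2 hpR ζ hζ x hx hfin hconst Bf Bi hBf hBi cf ci τ τE τR hτE hτR hτf hτi
    k hk u hu hdiv hsf hsi

/-- **S2, core**, from helper495's ALG-p (`p` odd). -/
theorem s2core_of_algP495 (hALG : Fermat.Agent.Ribet.H495.AlgP.AlgPStatement) (p M' : ℕ)
    (hp : p.Prime) (hp2 : p ≠ 2)
    (A : ValuationSubring (AlgebraicClosure ℚ)) (hA : A.LiesOverPrime p) (x : JZero (p * M'))
    (hx : Fermat.Agent.Ribet.H103.S2.DeepPureClass p M' A x) :
    ∀ σ ∈ A.inertiaSubgroupIn ℚ, ∀ c : ℕ, Fermat.Agent.Ribet.H944.Wall.CycloAt p σ c →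
      σ • x = c • x := by
  intro σ hσ c hc
  obtain ⟨E, hE, D, ζ, w, y, cf, ci, hζ, hw, ⟨hf0, Dv, hDx, hord⟩, hdf, hdi, hpf, hpi⟩ := hx
  haveI : IsDiscreteValuationRing ↥(RE A E) := hE.dvr
  haveI : HenselianLocalRing ↥(RE A E) := hE.henselian
  haveI : IsAlgClosed (IsLocalRing.ResidueField ↥(RE A E)) := hE.algClosed
  set F₀ := modularFunctionFieldFull (p * M') with hF₀
  have hy0 : y ≠ 0 := by
    rintro rfl
    exact hf0 (map_zero _)
  have hdiv : DivisibleDiv E p y :=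
    divisibleDiv_of_ord E F₀ p y hy0 (fun v => ⟨_, hord v⟩)
  have hk : resR hE σ hσ ζ = ζ ^ c := by
    apply Subtype.ext
    apply Subtype.ext
    show σ (((ζ : ↥(RE A E)) : E) : AlgebraicClosure ℚ) =
      (((ζ ^ c : ↥(RE A E)) : E) : AlgebraicClosure ℚ)
    have h1 : ((((ζ : ↥(RE A E)) : E) : AlgebraicClosure ℚ)) ^ p = 1 := by
      have := congrArg (fun z : ↥(RE A E) => (((z : E)) : AlgebraicClosure ℚ)) hζ.pow_eq_one
      simpa using this
    rw [hc _ h1]
    simp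
  obtain ⟨h, hh0, hh⟩ := algP103_of_algP495 hALG (R := ↥(RE A E)) (E := E)
    (F := ↥(FE E (p * M'))) p hp hp2
    (natCast_mem_maximalIdeal_RE E hA) ζ hζ w hw D.x D.hx D.hfin D.hconst D.Bf D.Bi D.hBf D.hBi
    cf ci
    (arithmeticRingAut F₀ (hE.res σ hσ))
    (hE.res σ hσ).toRingEquiv (resR hE σ hσ)
    (fun e => arithmeticRingAut_algebraMap F₀ (hE.res σ hσ) e)
    (fun r => rfl)
    (D.hτf hE σ hσ w hw) (D.hτi hE σ hσ w hw)
    c hk y hy0 hdiv hdf hdi
  have h1 := congrArg (iota E F₀) hh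
  rw [map_mul, map_pow, map_pow, iota_arithmeticRingAut E F₀ σ (hE.res σ hσ) (fun e => rfl)]
    at h1
  rw [← hDx]
  exact Fermat.Agent.Ribet.H103.S2.smul_eq_nsmul_of_kummer (arithmeticGalois F₀ σ) p c
    hp.ne_zero Dv (iota E F₀ y) hf0 hord (iota E F₀ h) (iota_ne_zero E F₀ hh0) h1

/-- **S2 from helper495's ALG-p, DICT and NC** (`p` odd). -/
theorem s2For_of_algP495 (hALG : Fermat.Agent.Ribet.H495.AlgP.AlgPStatement) (p M' : ℕ)
    [NeZero M'] [NeZero p] [NeZero (p * M')] (hp : p.Prime) (hp2 : p ≠ 2)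
    (A : ValuationSubring (AlgebraicClosure ℚ)) (hA : A.LiesOverPrime p)
    (𝒮 : AddSubgroup (JZero (p * M')))
    (hD : Fermat.Agent.Ribet.H103.S2.DictFor p M' A 𝒮)
    (hNC : Fermat.Agent.Ribet.H103.S2.NCFor p M' A) :
    Fermat.Agent.Ribet.H944.Wall.S2For p M' A 𝒮 := by
  intro x hx hnew σ hσ c hc
  exact s2core_of_algP495 hALG p M' hp hp2 A hA x (hNC x hnew (hD x hx hnew.1)) σ hσ c hc

end Fermat.Agent.Ribet.H913

end
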