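import Fermat.Agent.Ribet.H913.AlgPClose
import Fermat.Agent.Ribet.H913.S2Bridge
import Fermat.Agent.Ribet.H884.SlopeSpec

/-!
# RIBET wall-p, target (S2): what is left (helper913)

`s2Statement_of_core913`:

    H884.S2Statement  ⇐  GlueCorePStatement + HConstPLeaf   (abstract, `Ribet/H495/GluePSpec.lean`)
                       + DictFor (for `𝒮 = H884.splitPart`) + NCFor   (`Ribet/H103/S2Spec.lean`)

All the other pieces (WPS, WPN, LF-p, the assemblies, the GLUE-p bridge, the Kummer dictionary T)
are on main and co-importable (this file builds).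
-/

set_option autoImplicit false

namespace Fermat.Agent.Ribet.H913

open Fermat.Agent.Ribet.H495.AlgP

/-- (S2) for the official split part, from the four remaining leaves. -/
theorem s2Statement_of_core913 (hcore : GlueCorePStatement) (hconst : HConstPLeaf)
    (hD : ∀ (p M' : ℕ) [NeZero M'] [NeZero p] [NeZero (p * M')], p.Prime → p ≠ 2 → ¬ p ∣ M' →
      ∀ A : ValuationSubring (AlgebraicClosure ℚ), A.LiesOverPrime p →
        Fermat.Agent.Ribet.H103.S2.DictFor p M' A (Fermat.Agent.Ribet.H884.splitPart p M' A))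
    (hNC : ∀ (p M' : ℕ) [NeZero M'] [NeZero p] [NeZero (p * M')], p.Prime → p ≠ 2 → ¬ p ∣ M' →
      ∀ A : ValuationSubring (AlgebraicClosure ℚ), A.LiesOverPrime p →
        Fermat.Agent.Ribet.H103.S2.NCFor p M' A) :
    Fermat.Agent.Ribet.H884.S2Statement := by
  intro p M' _ _ _ hp hp2 hpM A hA
  exact s2For_of_algP495 (algP_of_glueCore913 hcore hconst) p M' hp hp2 A hA _
    (hD p M' hp hp2 hpM A hA) (hNC p M' hp hp2 hpM A hA)

end Fermat.Agent.Ribet.H913
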